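import Fermat.Agent.Brouwer.Basic
import Mathlib.Topology.TietzeExtension

/-!
# Invariance of domain

An injective continuous map on an open subset of a finite-dimensional space into a space of the
same dimension is open (Brouwer), by the proof of Kulpa.
-/

set_option autoImplicit false

noncomputable section

open Set Metric MeasureTheory Module
open scoped InnerProductSpace Topology

namespace FA.InvarianceOfDomain

section Inner

variable {E : Type*} [NormedAddCommGroup E] [InnerProductSpace ℝ E] [FiniteDimensional ℝ E]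

/-- The centre of the unit ball goes to an interior point. -/
theorem mem_nhds_image_ball {n : ℕ} (e : E ≃L[ℝ] (Fin n → ℝ)) (f : E → E)
    (hf : ContinuousOn f (closedBall 0 1)) (hinj : InjOn f (closedBall 0 1)) :
    f '' closedBall 0 1 ∈ 𝓝 (f 0) := by
  let : MeasurableSpace E := borel E
  have : BorelSpace E := ⟨rfl⟩
  set B := closedBall (0 : E) 1 with hB
  set K := f '' B with hK
  have hBc : IsCompact B := isCompact_closedBall 0 1
  have hKc : IsCompact K := hBc.image_of_continuousOn hf
  have h0B : (0 : E) ∈ B := mem_closedBall_self zero_le_one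
  -- extend the inverse
  have : CompactSpace B := isCompact_iff_compactSpace.1 hBc
  have hemb : Topology.IsClosedEmbedding fun x : B => f x :=
    Continuous.isClosedEmbedding hf.domRestrict fun a b h => Subtype.ext (hinj a.2 b.2 h)
  obtain ⟨G', hG'⟩ := ContinuousMap.exists_extension hemb
    (⟨fun x : B => e x, e.continuous.comp continuous_subtype_val⟩ :
      C(B, Fin n → ℝ))
  set G : E → E := fun y => e.symm (G' y) with hGdef
  have hGc : Continuous G := e.symm.continuous.comp G'.continuous
  have hGf : ∀ x ∈ B, G (f x) = x := fun x hx => by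
    have := DFunLike.congr_fun hG' ⟨x, hx⟩
    simp only [ContinuousMap.comp_apply, ContinuousMap.coe_mk] at this
    simp [hGdef, this]
  -- every map close to `G` on the image has a zero there
  have hstable : ∀ H : E → E, ContinuousOn H K → (∀ y ∈ K, ‖G y - H y‖ ≤ 1) →
      ∃ y ∈ K, H y = 0 := by
    intro H hH hclose
    obtain ⟨x, hx, hfix⟩ := FA.Brouwer.exists_fixed hBc (convex_closedBall 0 1) ⟨0, h0B⟩
      (f := fun x => x - H (f x)) (continuousOn_id.sub (hH.comp hf (mapsTo_image f B)))
      fun x hx => mem_closedBall_zero_iff.2 <| by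
        simpa [hGf x hx] using hclose (f x) (mem_image_of_mem f hx)
    exact ⟨f x, mem_image_of_mem f hx, by simpa using hfix⟩
  by_contra hnot
  obtain ⟨η, hη0, hη⟩ := Metric.continuousAt_iff.1 (hGc.continuousAt (x := f 0)) (1 / 10)
    (by norm_num)
  set ε := η / 2 with hεdef
  have hε : 0 < ε := half_pos hη0
  obtain ⟨c, hc, hcK⟩ : ∃ c ∈ ball (f 0) ε, c ∉ K := by
    by_contra! h
    exact hnot (Filter.mem_of_superset (ball_mem_nhds _ hε) h)
  set S1 := K ∩ {y | ε ≤ dist y c} with hS1
  set S2 := sphere c ε with hS2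
  have hS1c : IsCompact S1 :=
    hKc.inter_right (isClosed_le continuous_const (continuous_id.dist continuous_const))
  have hG1 : ∀ y ∈ S1, 0 < ‖G y‖ := by
    rintro y ⟨⟨x, hx, rfl⟩, hy⟩
    refine norm_pos_iff.2 fun h => ?_
    rw [hGf x hx] at h
    subst h
    exact absurd (show ε ≤ dist (f 0) c from hy) (not_le.2 (mem_ball'.1 hc))
  obtain ⟨δ, hδ, hδ1⟩ := hS1c.exists_forall_le' hGc.norm.continuousOn hG1
  set δ' := min δ (1 / 10) with hδ'
  have hδ'0 : 0 < δ' := lt_min hδ (by norm_num)
  obtain ⟨P, hP, hPG, -⟩ := hGc.exists_contDiff_approx 1 continuous_const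
    (ε := fun _ => δ' / 2) fun _ => half_pos hδ'0
  have hnull : volume (P '' S2) = 0 :=
    addHaar_image_eq_zero_of_differentiableOn_of_addHaar_eq_zero volume
      (hP.differentiable one_ne_zero).differentiableOn
      (Measure.addHaar_sphere_of_ne_zero volume c hε.ne')
  obtain ⟨v, hv, hvP⟩ : ∃ v ∈ ball (0 : E) (δ' / 2), v ∉ P '' S2 := by
    by_contra! h
    exact absurd (measure_mono_null h hnull) (measure_ball_pos volume 0 (half_pos hδ'0)).ne'
  rw [mem_ball_zero_iff] at hv
  set Φ : E → E := fun y => c + max (ε / dist y c) 1 • (y - c) with hΦ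
  have hPv : ∀ z, ‖G z - (P z - v)‖ < δ' := fun z => by
    calc ‖G z - (P z - v)‖ = ‖(G z - P z) + v‖ := by rw [sub_sub_eq_add_sub, sub_add_eq_add_sub]
      _ ≤ ‖G z - P z‖ + ‖v‖ := norm_add_le _ _
      _ < δ' / 2 + δ' / 2 := add_lt_add (by rw [← dist_eq_norm, dist_comm]; exact hPG z) hv
      _ = δ' := add_halves _
  have hΦc : ContinuousOn Φ K := continuousOn_const.add <|
    (continuous_max.comp_continuousOn ((continuousOn_const.div
      (continuous_id.dist continuous_const).continuousOn
      fun y hy => (dist_pos.2 fun h : y = c => hcK (h ▸ hy)).ne').prodMk continuousOn_const)).smul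
      (continuousOn_id.sub continuousOn_const)
  have hcases : ∀ y ∈ K, (ε ≤ dist y c ∧ Φ y = y) ∨ (dist y c < ε ∧ Φ y ∈ S2) := fun y hy => by
    have hpos : 0 < dist y c := dist_pos.2 fun h => hcK (h ▸ hy)
    rcases le_or_gt ε (dist y c) with h | h
    · exact Or.inl ⟨h, by simp [hΦ, max_eq_right ((div_le_one hpos).2 h)]⟩
    · refine Or.inr ⟨h, ?_⟩
      rw [hS2, mem_sphere, dist_eq_norm]
      simp only [hΦ, add_sub_cancel_left, max_eq_left ((one_le_div hpos).2 h.le), norm_smul,
        Real.norm_of_nonneg (div_nonneg hε.le hpos.le), ← dist_eq_norm]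
      rw [div_mul_cancel₀ _ hpos.ne']
  obtain ⟨y, hy, hzero⟩ := hstable (fun y => P (Φ y) - v)
    ((hP.continuous.comp_continuousOn hΦc).sub continuousOn_const) fun y hy => by
      rcases hcases y hy with ⟨-, h⟩ | ⟨h, h'⟩
      · rw [h]
        exact (hPv y).le.trans ((min_le_right _ _).trans (by norm_num))
      · have hf0 : dist c (f 0) < ε := mem_ball.1 hc
        have h1 : ‖G y‖ < 1 / 10 := by
          have := hη (show dist y (f 0) < η by
            linarith [dist_triangle y c (f 0)])
          rwa [hGf 0 h0B, dist_zero_right] at this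
        have h2 : ‖G (Φ y)‖ < 1 / 10 := by
          have := hη (show dist (Φ y) (f 0) < η by
            linarith [dist_triangle (Φ y) c (f 0), mem_sphere.1 h'])
          rwa [hGf 0 h0B, dist_zero_right] at this
        calc ‖G y - (P (Φ y) - v)‖ = ‖(G y - G (Φ y)) + (G (Φ y) - (P (Φ y) - v))‖ := by
              rw [sub_add_sub_cancel]
          _ ≤ ‖G y - G (Φ y)‖ + ‖G (Φ y) - (P (Φ y) - v)‖ := norm_add_le _ _
          _ ≤ (1 / 10 + 1 / 10) + 1 / 10 := add_le_add
              ((norm_sub_le _ _).trans (add_le_add h1.le h2.le))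
              ((hPv _).le.trans (min_le_right _ _))
          _ ≤ 1 := by norm_num
  rcases hcases y hy with ⟨h, h'⟩ | ⟨-, h'⟩
  · rw [h'] at hzero
    have := hPv y
    rw [hzero, sub_zero] at this
    linarith [hδ1 y ⟨hy, h⟩, min_le_left δ (1 / 10)]
  · exact hvP ⟨_, h', sub_eq_zero.1 hzero⟩

/-- **Invariance of domain** in a Euclidean space. -/
theorem isOpen_image_inner {U : Set E} (hU : IsOpen U) {f : E → E} (hf : ContinuousOn f U)
    (hinj : InjOn f U) : IsOpen (f '' U) := by
  refine isOpen_iff_mem_nhds.2 ?_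
  rintro _ ⟨x, hx, rfl⟩
  obtain ⟨r, hr, hrU⟩ := nhds_basis_closedBall.mem_iff.1 (hU.mem_nhds hx)
  have hmaps : MapsTo (fun z => x + r • z) (closedBall (0 : E) 1) U := fun z hz => hrU (by
    rw [mem_closedBall, dist_eq_norm, add_sub_cancel_left, norm_smul, Real.norm_of_nonneg hr.le]
    exact mul_le_of_le_one_right hr.le (mem_closedBall_zero_iff.1 hz))
  have h := mem_nhds_image_ball (toEuclidean.trans (EuclideanSpace.equiv _ ℝ))
    (fun z => f (x + r • z))
    (hf.comp (Continuous.continuousOn (by fun_prop)) hmaps)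
    fun a ha b hb hab => by
      simpa [hr.ne'] using hinj (hmaps ha) (hmaps hb) hab
  simp only [smul_zero, add_zero] at h
  refine Filter.mem_of_superset h ?_
  rintro _ ⟨z, hz, rfl⟩
  exact mem_image_of_mem f (hmaps hz)

end Inner

variable {V W : Type*} [NormedAddCommGroup V] [NormedSpace ℝ V] [FiniteDimensional ℝ V]
  [NormedAddCommGroup W] [NormedSpace ℝ W] [FiniteDimensional ℝ W]

/-- **Invariance of domain.** -/
theorem isOpen_image (hVW : finrank ℝ V = finrank ℝ W) {U : Set V} (hU : IsOpen U) {f : V → W}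
    (hf : ContinuousOn f U) (hinj : InjOn f U) : IsOpen (f '' U) := by
  set L : V ≃L[ℝ] EuclideanSpace ℝ (Fin (finrank ℝ V)) := toEuclidean
  set M : W ≃L[ℝ] EuclideanSpace ℝ (Fin (finrank ℝ V)) :=
    ContinuousLinearEquiv.ofFinrankEq (by rw [finrank_euclideanSpace_fin, hVW])
  have h := isOpen_image_inner (U := L.symm ⁻¹' U) (hU.preimage L.symm.continuous)
    (f := fun z => M (f (L.symm z)))
    (M.continuous.comp_continuousOn (hf.comp L.symm.continuous.continuousOn fun z hz => hz))
    fun a ha b hb hab => L.symm.injective (hinj ha hb (M.injective hab))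
  have e : (fun z => M (f (L.symm z))) '' (L.symm ⁻¹' U) = M '' (f '' U) := by
    rw [← image_image (g := M), ← image_image (g := f) (f := L.symm),
      image_preimage_eq U L.symm.surjective]
  rw [e] at h
  simpa [M.injective.preimage_image] using h.preimage M.continuous

/-- A continuous injection of a nonempty open set does not lower the dimension. -/
theorem finrank_le {U : Set V} (hU : IsOpen U) (hne : U.Nonempty) {f : V → W}
    (hf : ContinuousOn f U) (hinj : InjOn f U) : finrank ℝ V ≤ finrank ℝ W := by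
  by_contra! hlt
  have hle : finrank ℝ W ≤ finrank ℝ V := hlt.le
  obtain ⟨v, hv⟩ := exists_linearIndependent_of_le_finrank hle
  obtain ⟨j, hj⟩ : ∃ j : W →ₗ[ℝ] V, Function.Injective j :=
    ⟨Fintype.linearCombination ℝ v ∘ₗ (finBasis ℝ W).equivFun.toLinearMap,
      (hv.fintypeLinearCombination_injective).comp (finBasis ℝ W).equivFun.injective⟩
  have hopen := isOpen_image rfl hU (f := fun x => j (f x))
    (j.continuous_of_finiteDimensional.comp_continuousOn hf)
    fun a ha b hb hab => hinj ha hb (hj hab)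
  have htop : LinearMap.range j = ⊤ := by
    refine Submodule.eq_top_of_nonempty_interior' _ ?_
    obtain ⟨x, hx⟩ := hne
    exact ⟨j (f x), interior_maximal (by rintro _ ⟨y, -, rfl⟩; exact ⟨f y, rfl⟩) hopen
      (mem_image_of_mem _ hx)⟩
  have := LinearMap.finrank_range_of_inj hj
  rw [htop, finrank_top] at this
  omega

/-- **Invariance of dimension.** -/
theorem finrank_eq (h : V ≃ₜ W) : finrank ℝ V = finrank ℝ W :=
  (finrank_le isOpen_univ univ_nonempty h.continuous.continuousOn h.injective.injOn).antisymm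
    (finrank_le isOpen_univ univ_nonempty h.symm.continuous.continuousOn h.symm.injective.injOn)

/-- **The theorem of Poincaré and Miranda.** -/
theorem poincare_miranda {n : ℕ} {f : (Fin n → ℝ) → Fin n → ℝ}
    (hf : ContinuousOn f (Icc (-1) 1))
    (hlow : ∀ x ∈ Icc (-1 : Fin n → ℝ) 1, ∀ i, x i = -1 → f x i ≤ 0)
    (hhigh : ∀ x ∈ Icc (-1 : Fin n → ℝ) 1, ∀ i, x i = 1 → 0 ≤ f x i) :
    ∃ x ∈ Icc (-1 : Fin n → ℝ) 1, f x = 0 := by
  obtain ⟨x, hx, hfix⟩ := FA.Brouwer.exists_fixed (s := Icc (-1 : Fin n → ℝ) 1) isCompact_Icc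
    (convex_Icc _ _) (nonempty_Icc.2 fun i => by norm_num)
    (f := fun x i => max (-1) (min 1 (x i - f x i)))
    (continuousOn_pi.2 fun i => continuous_max.comp_continuousOn (continuousOn_const.prodMk
      (continuous_min.comp_continuousOn (continuousOn_const.prodMk
        ((continuous_apply i).continuousOn.sub (continuousOn_pi.1 hf i))))))
    fun x _ => ⟨fun i => le_max_left _ _, fun i => max_le (by norm_num) (min_le_left _ _)⟩
  refine ⟨x, hx, funext fun i => ?_⟩
  have h := congrFun hfix i
  have h1 : -1 ≤ x i := hx.1 i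
  have h2 : x i ≤ 1 := hx.2 i
  have h3 := hlow x hx i
  have h4 := hhigh x hx i
  rw [Pi.zero_apply]
  rcases lt_trichotomy (f x i) 0 with hneg | hzero | hpos
  · by_cases hx1 : x i = 1
    · linarith [h4 hx1]
    · have : x i < min 1 (x i - f x i) := lt_min (h2.lt_of_ne hx1) (by linarith)
      linarith [le_max_right (-1 : ℝ) (min 1 (x i - f x i))]
  · exact hzero
  · by_cases hx0 : x i = -1
    · linarith [h3 hx0]
    · have : max (-1 : ℝ) (min 1 (x i - f x i)) < x i :=
        max_lt (h1.lt_of_ne (Ne.symm hx0)) ((min_le_right _ _).trans_lt (by linarith))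
      linarith

/-- **Perron and Frobenius**: a nonnegative eigenvector. -/
theorem exists_eigenvector {ι : Type*} [Fintype ι] [Nonempty ι] (A : Matrix ι ι ℝ)
    (hA : ∀ i j, 0 ≤ A i j) :
    ∃ μ : ℝ, 0 ≤ μ ∧ ∃ v ∈ stdSimplex ℝ ι, A.mulVec v = μ • v := by
  classical
  have hpos : ∀ v ∈ stdSimplex ℝ ι, ∀ i, 0 ≤ A.mulVec v i := fun v hv i =>
    Finset.sum_nonneg fun j _ => mul_nonneg (hA i j) (hv.1 j)
  have hsum : ∀ v ∈ stdSimplex ℝ ι, (0 : ℝ) < 1 + ∑ k, A.mulVec v k := fun v hv =>
    add_pos_of_pos_of_nonneg one_pos (Finset.sum_nonneg fun k _ => hpos v hv k)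
  obtain ⟨v, hv, hfix⟩ := FA.Brouwer.exists_fixed (s := stdSimplex ℝ ι)
    (f := fun v i => (v i + A.mulVec v i) / (1 + ∑ k, A.mulVec v k))
    (isCompact_stdSimplex ℝ ι) (convex_stdSimplex ℝ ι)
    ⟨_, single_mem_stdSimplex ℝ (Classical.arbitrary ι)⟩
    (continuousOn_pi.2 fun i => ContinuousOn.div (Continuous.continuousOn (by fun_prop))
      (Continuous.continuousOn (by fun_prop)) fun v hv => (hsum v hv).ne')
    fun v hv => ⟨fun i => div_nonneg (add_nonneg (hv.1 i) (hpos v hv i)) (hsum v hv).le, by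
      rw [← Finset.sum_div, Finset.sum_add_distrib, hv.2, div_self (hsum v hv).ne']⟩
  refine ⟨∑ k, A.mulVec v k, Finset.sum_nonneg fun k _ => hpos v hv k, v, hv, funext fun i => ?_⟩
  have h := (div_eq_iff (hsum v hv).ne').1 (congrFun hfix i)
  simp only [Pi.smul_apply, smul_eq_mul]
  linarith

end FA.InvarianceOfDomain

end
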